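import Fermat.Agent.GK.Nodal.FrobGlue

/-!
# GATE-K / FrobGlue : the two branches of a node, ideal side of the nodal bridge (helper29)

Mathlib only (on top of `FrobGlue`).  A node `P` of `gluedAlg Ψ J'` (a maximal ideal of `C`
containing `J' ≥ fixIdeal Ψ`) is seen on the first copy of `Spec C` at `P` and on the second copy
at `π P := P.comap Ψ`.

* `comap_comap_of_fixIdeal_le`, `comap_injOn` : `π` is an involution on `V(fixIdeal Ψ)`, in
  particular injective on the nodes;
* `comap_isMaximal`, `evalAt_comap` : `π P` is a `k`-rational maximal ideal when `P` is, and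
  `evalAt (π P) c = evalAt P (Ψ c)`;
* `surjective_algebraMap_quotient` : for `k` algebraically closed and `C` integral over `k[t]`,
  EVERY maximal ideal of `C` is `k`-rational (hypothesis `hk` of `mem_gluedAlg_iff_evalAt`,
  `finrank_quotient_gluedAlg`);
* `mem_gluedAlg_iff_evalAt_comap` : `z ∈ gluedAlg Ψ J' ↔ ∀ P ∈ nodes J', z.1 (P) = z.2 (π P)`.
-/

set_option autoImplicit false

namespace Fermat.Agent.GK.FrobGlue

variable {k C : Type*} [Field k] [CommRing C] [Algebra k C] (Ψ : C →ₐ[k] C)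

/-- `Ψ ∘ Ψ` is the identity modulo any ideal containing `fixIdeal Ψ`. -/
lemma map_map_mem_iff {P : Ideal C} (hP : fixIdeal Ψ ≤ P) (a : C) : Ψ (Ψ a) ∈ P ↔ a ∈ P := by
  have h := hP (sub_mem_fixIdeal Ψ a)
  constructor
  · intro h1
    have := P.add_mem h h1
    simpa using this
  · intro h1
    have := P.sub_mem h1 h
    simpa using this

/-- `π ∘ π = id` on `V(fixIdeal Ψ)`. -/
lemma comap_comap_of_fixIdeal_le {P : Ideal C} (hP : fixIdeal Ψ ≤ P) :
    (P.comap Ψ).comap Ψ = P := by
  ext a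
  simp only [Ideal.mem_comap]
  exact map_map_mem_iff Ψ hP a

/-- `V(fixIdeal Ψ)` is stable under `π`. -/
lemma fixIdeal_le_comap {P : Ideal C} (hP : fixIdeal Ψ ≤ P) : fixIdeal Ψ ≤ P.comap Ψ := by
  intro a ha
  exact hP (map_mem_fixIdeal Ψ ha)

/-- `π` is injective on `V(fixIdeal Ψ)`. -/
lemma comap_injOn : Set.InjOn (Ideal.comap Ψ) {P : Ideal C | fixIdeal Ψ ≤ P} := by
  intro P hP Q hQ h
  have := congrArg (Ideal.comap Ψ) h
  rwa [comap_comap_of_fixIdeal_le Ψ hP, comap_comap_of_fixIdeal_le Ψ hQ] at this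

/-- `π` is injective on the nodes. -/
lemma comap_injOn_nodes {J' : Ideal C} (hJ : fixIdeal Ψ ≤ J') :
    Set.InjOn (Ideal.comap Ψ) (nodes J') :=
  (comap_injOn Ψ).mono fun _ hP => hJ.trans hP.2

section Rational

/-- the character of the second branch: `c ↦ (Ψ c)(P)`. -/
noncomputable def evalAtComp (P : Ideal C) (hP : P.IsMaximal)
    (hk : Function.Surjective (algebraMap k (C ⧸ P))) : C →ₐ[k] k := (evalAt P hP hk).comp Ψ

@[simp] lemma evalAtComp_apply (P : Ideal C) (hP : P.IsMaximal)
    (hk : Function.Surjective (algebraMap k (C ⧸ P))) (c : C) :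
    evalAtComp Ψ P hP hk c = evalAt P hP hk (Ψ c) := rfl

lemma ker_evalAtComp (P : Ideal C) (hP : P.IsMaximal)
    (hk : Function.Surjective (algebraMap k (C ⧸ P))) :
    RingHom.ker (evalAtComp Ψ P hP hk).toRingHom = P.comap Ψ := by
  ext c
  rw [RingHom.mem_ker, Ideal.mem_comap]
  exact evalAt_eq_zero_iff P hP hk (Ψ c)

lemma evalAtComp_surjective (P : Ideal C) (hP : P.IsMaximal)
    (hk : Function.Surjective (algebraMap k (C ⧸ P))) :
    Function.Surjective (evalAtComp Ψ P hP hk) := by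
  intro r
  exact ⟨algebraMap k C r, by simp⟩

/-- `π P` is a maximal ideal. -/
lemma comap_isMaximal (P : Ideal C) (hP : P.IsMaximal)
    (hk : Function.Surjective (algebraMap k (C ⧸ P))) : (P.comap Ψ).IsMaximal := by
  rw [← ker_evalAtComp Ψ P hP hk]
  exact RingHom.ker_isMaximal_of_surjective _ (evalAtComp_surjective Ψ P hP hk)

lemma sub_algebraMap_evalAt_map_mem_comap (P : Ideal C) (hP : P.IsMaximal)
    (hk : Function.Surjective (algebraMap k (C ⧸ P))) (c : C) :
    c - algebraMap k C (evalAt P hP hk (Ψ c)) ∈ P.comap Ψ := by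
  rw [Ideal.mem_comap, map_sub, AlgHom.commutes]
  exact sub_algebraMap_evalAt_mem P hP hk (Ψ c)

/-- `π P` is `k`-rational. -/
lemma surjective_algebraMap_quotient_comap (P : Ideal C) (hP : P.IsMaximal)
    (hk : Function.Surjective (algebraMap k (C ⧸ P))) :
    Function.Surjective (algebraMap k (C ⧸ P.comap Ψ)) := by
  intro x
  obtain ⟨c, rfl⟩ := Ideal.Quotient.mk_surjective x
  refine ⟨evalAt P hP hk (Ψ c), ?_⟩
  have h2 := (Ideal.Quotient.eq_zero_iff_mem).2 (sub_algebraMap_evalAt_map_mem_comap Ψ P hP hk c)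
  rw [map_sub, sub_eq_zero] at h2
  rw [h2]
  rfl

/-- **the value on the second branch**: `c (π P) = (Ψ c)(P)`. -/
lemma evalAt_comap (P : Ideal C) (hP : P.IsMaximal)
    (hk : Function.Surjective (algebraMap k (C ⧸ P))) (c : C) :
    evalAt (P.comap Ψ) (comap_isMaximal Ψ P hP hk)
      (surjective_algebraMap_quotient_comap Ψ P hP hk) c = evalAt P hP hk (Ψ c) := by
  have hmax := comap_isMaximal Ψ P hP hk
  have hk' := surjective_algebraMap_quotient_comap Ψ P hP hk
  have h2 := (evalAt_eq_iff (P.comap Ψ) hmax hk' c (algebraMap k C (evalAt P hP hk (Ψ c)))).2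
    (sub_algebraMap_evalAt_map_mem_comap Ψ P hP hk c)
  rw [h2, AlgHom.commutes]
  rfl

end Rational

section AlgClosed

open Polynomial in
/-- for `k` algebraically closed and `C` integral over `k[t]`, every maximal ideal of `C` is
`k`-rational. -/
theorem surjective_algebraMap_quotient [IsAlgClosed k] (t : C)
    (hint : Algebra.IsIntegral (Algebra.adjoin k {t}) C) (P : Ideal C) [hP : P.IsMaximal] :
    Function.Surjective (algebraMap k (C ⧸ P)) := by
  let _ : Field (C ⧸ P) := Ideal.Quotient.field P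
  -- the three maps `k[X] → k[t] → C → C ⧸ P`
  let g₁ : k[X] →+* Algebra.adjoin k {t} :=
    ((aeval t).codRestrict (Algebra.adjoin k {t}) fun p => by
      rw [Algebra.adjoin_singleton_eq_range_aeval]
      exact ⟨p, rfl⟩).toRingHom
  have hg₁ : Function.Surjective g₁ := by
    rintro ⟨y, hy⟩
    rw [Algebra.adjoin_singleton_eq_range_aeval] at hy
    obtain ⟨p, rfl⟩ := hy
    exact ⟨p, rfl⟩
  let g₂ : Algebra.adjoin k {t} →+* C := algebraMap _ C
  have hg₂ : g₂.IsIntegral := algebraMap_isIntegral_iff.2 hint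
  let g₃ : C →+* C ⧸ P := Ideal.Quotient.mk P
  have hg₃ : g₃.IsIntegral := RingHom.isIntegral_of_surjective _ Ideal.Quotient.mk_surjective
  let F : k[X] →ₐ[k] (C ⧸ P) := (Ideal.Quotient.mkₐ k P).comp (aeval t)
  have hF : F.toRingHom = g₃.comp (g₂.comp g₁) := RingHom.ext fun _ => rfl
  have hFint : F.toRingHom.IsIntegral := by
    rw [hF]
    exact ((RingHom.isIntegral_of_surjective _ hg₁).trans _ _ hg₂).trans _ _ hg₃
  -- the kernel is a nonzero maximal ideal
  have hmax : (RingHom.ker F.toRingHom).IsMaximal := by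
    rw [RingHom.ker_eq_comap_bot]
    exact Ideal.isMaximal_comap_of_isIntegral_of_isMaximal' F.toRingHom hFint ⊥
  have hne : RingHom.ker F.toRingHom ≠ ⊥ :=
    Ring.ne_bot_of_isMaximal_of_not_isField hmax (Polynomial.not_isField k)
  obtain ⟨p, hpker, hp0⟩ := Submodule.exists_mem_ne_zero_of_ne_bot hne
  -- so the image of `t` is algebraic, hence in `k`
  set tb : C ⧸ P := Ideal.Quotient.mk P t with htb
  have hFp : aeval tb p = 0 := by
    have : F p = aeval tb p := by
      show (Ideal.Quotient.mkₐ k P) (aeval t p) = _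
      rw [← aeval_algHom_apply]
      rfl
    rw [← this]
    exact hpker
  have htbint : IsIntegral k tb := (isAlgebraic_iff_isIntegral).1 ⟨p, hp0, hFp⟩
  have hdeg : (minpoly k tb).degree = 1 :=
    IsAlgClosed.degree_eq_one_of_irreducible k (minpoly.irreducible htbint)
  obtain ⟨a, ha⟩ := minpoly.mem_range_of_degree_eq_one k tb hdeg
  -- `F` factors through evaluation at `a`
  have hfac : F.toRingHom = (algebraMap k (C ⧸ P)).comp (aeval a : k[X] →ₐ[k] k).toRingHom := by
    have : F = (Algebra.ofId k (C ⧸ P)).comp (aeval a : k[X] →ₐ[k] k) := by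
      apply Polynomial.algHom_ext
      show (Ideal.Quotient.mkₐ k P) (aeval t X) = algebraMap k (C ⧸ P) (aeval a X)
      rw [aeval_X, aeval_X, ha]
      rfl
    rw [this]
    rfl
  have hint' : (algebraMap k (C ⧸ P)).IsIntegral := by
    rw [hfac] at hFint
    exact RingHom.IsIntegral.tower_top _ _ hFint
  exact (IsAlgClosed.ringHom_bijective_of_isIntegral (algebraMap k (C ⧸ P)) hint').2

end AlgClosed

section Count

variable [IsDedekindDomain C] {q : ℕ}

/-- **membership in the glueing, two-branch form**: `z.1 (P) = z.2 (π P)` at every node `P`. -/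
theorem mem_gluedAlg_iff_evalAt_comap (hC : ¬ IsField C) (hq : 2 ≤ q)
    (hΨ : ∀ a, ∃ b, Ψ a = b ^ q) {J' : Ideal C} (h : fixIdeal Ψ ≤ J')
    (hk : ∀ P ∈ nodes J', Function.Surjective (algebraMap k (C ⧸ P))) (z : C × C) :
    z ∈ gluedAlg Ψ J' ↔
      ∀ (P : Ideal C) (hP : P ∈ nodes J'),
        evalAt P hP.1 (hk P hP) z.1 =
          evalAt (P.comap Ψ) (comap_isMaximal Ψ P hP.1 (hk P hP))
            (surjective_algebraMap_quotient_comap Ψ P hP.1 (hk P hP)) z.2 := by
  rw [mem_gluedAlg_iff_evalAt Ψ hC hq hΨ h hk]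
  refine forall₂_congr fun P hP => ?_
  rw [evalAt_comap]

/-- `finrank_quotient_gluedAlg` with the `k`-rationality of the nodes discharged. -/
theorem finrank_quotient_gluedAlg_of_isAlgClosed [IsAlgClosed k] (t : C)
    (hint : Algebra.IsIntegral (Algebra.adjoin k {t}) C) (hC : ¬ IsField C) (hq : 2 ≤ q)
    (hΨ : ∀ a, ∃ b, Ψ a = b ^ q) {J' : Ideal C} (h : fixIdeal Ψ ≤ J') :
    Module.finrank k ((C × C) ⧸ Subalgebra.toSubmodule (gluedAlg Ψ J')) = (nodes J').ncard :=
  finrank_quotient_gluedAlg Ψ hC hq hΨ h fun P hP => by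
    have := hP.1
    exact surjective_algebraMap_quotient t hint P

end Count

end Fermat.Agent.GK.FrobGlue
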