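import Mathlib

/-!
# GATE-K / K2'-ALG : the nodal ring of `Γ_Frob ∪ Γ_Frobᵗ ⊂ C × C` (helper29)

Pure algebra, Mathlib only.  `C` is a commutative `k`-algebra and `Ψ : C →ₐ[k] C` an endomorphism
(in the application `C` is the integral closure of `k[j~]` in the residue function field
`F~_{N'}` and `Ψ f = f ∘ Frob`).

* `fixIdeal Ψ` is the ideal generated by all `a - Ψ (Ψ a)` (the ideal of `Fix(π²)`).
* `gluedAlg Ψ J'` is the subalgebra `{(g, h) | g - Ψ h ∈ J'}` of `C × C` (the glueing of the two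
  copies of `Spec C` along `Spec (C ⧸ J')`, `x` on the first branch with `π x` on the second).
* `exists_ideal_eq_gluedAlg` : EVERY subalgebra `R` of `C × C` containing all `(a, Ψ a)` and all
  `(Ψ b, b)` is `gluedAlg Ψ J'` for ONE ideal `J' ⊇ fixIdeal Ψ` (no Dedekind hypothesis, no CRT).
* `adjoin_eq_gluedAlg` : the subalgebra generated by these elements is `gluedAlg Ψ (fixIdeal Ψ)`.
* for `C` a Dedekind domain (not a field) and `Ψ (C) ⊆ C ^ q`, `q ≥ 2`: `fixIdeal Ψ ≠ ⊥`, every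
  ideal `J' ⊇ fixIdeal Ψ` is radical, `J' = ⨅` of the finitely many maximal ideals containing it
  (`nodes J'`), membership in `gluedAlg Ψ J'` is tested at the nodes, and the codimension of
  `gluedAlg Ψ J'` in `C × C` is the number of nodes when their residue fields are `k`.
-/

set_option autoImplicit false

namespace Fermat.Agent.GK.FrobGlue

variable {k C : Type*} [Field k] [CommRing C] [Algebra k C] (Ψ : C →ₐ[k] C)

/-- the ideal generated by all `a - Ψ (Ψ a)`. -/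
def fixIdeal : Ideal C := Ideal.span (Set.range fun a : C => a - Ψ (Ψ a))

lemma sub_mem_fixIdeal (a : C) : a - Ψ (Ψ a) ∈ fixIdeal Ψ :=
  Ideal.subset_span ⟨a, rfl⟩

lemma map_mem_fixIdeal {j : C} (hj : j ∈ fixIdeal Ψ) : Ψ j ∈ fixIdeal Ψ := by
  refine Submodule.span_induction ?_ ?_ ?_ ?_ hj
  · rintro _ ⟨a, rfl⟩
    have := sub_mem_fixIdeal Ψ (Ψ a)
    simpa [map_sub] using this
  · simp
  · intro x y _ _ hx hy
    simpa [map_add] using (fixIdeal Ψ).add_mem hx hy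
  · intro c x _ hx
    simpa [smul_eq_mul, map_mul] using (fixIdeal Ψ).mul_mem_left (Ψ c) hx

/-- the glued subalgebra `{(g, h) | g - Ψ h ∈ J'}` of `C × C`. -/
def gluedAlg (J' : Ideal C) : Subalgebra k (C × C) where
  carrier := {z | z.1 - Ψ z.2 ∈ J'}
  mul_mem' := by
    rintro ⟨g, h⟩ ⟨g', h'⟩ hz hz'
    simp only [Set.mem_ofPred_eq, Prod.mk_mul_mk, map_mul] at hz hz' ⊢
    have : g * g' - Ψ h * Ψ h' = g * (g' - Ψ h') + Ψ h' * (g - Ψ h) := by ring
    rw [this]
    exact J'.add_mem (J'.mul_mem_left _ hz') (J'.mul_mem_left _ hz)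
  one_mem' := by simp
  add_mem' := by
    rintro ⟨g, h⟩ ⟨g', h'⟩ hz hz'
    simp only [Set.mem_ofPred_eq, Prod.mk_add_mk, map_add] at hz hz' ⊢
    have : g + g' - (Ψ h + Ψ h') = (g - Ψ h) + (g' - Ψ h') := by ring
    rw [this]
    exact J'.add_mem hz hz'
  zero_mem' := by simp
  algebraMap_mem' := by
    intro r
    simp [Prod.algebraMap_apply]

@[simp] lemma mem_gluedAlg {J' : Ideal C} {z : C × C} :
    z ∈ gluedAlg Ψ J' ↔ z.1 - Ψ z.2 ∈ J' := Iff.rfl

lemma mk_mem_gluedAlg {J' : Ideal C} {g h : C} :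
    (g, h) ∈ gluedAlg Ψ J' ↔ g - Ψ h ∈ J' := Iff.rfl

lemma left_mem_gluedAlg (J' : Ideal C) (hJ : fixIdeal Ψ ≤ J') (a : C) :
    (a, Ψ a) ∈ gluedAlg Ψ J' := hJ (sub_mem_fixIdeal Ψ a)

lemma right_mem_gluedAlg (J' : Ideal C) (b : C) : (Ψ b, b) ∈ gluedAlg Ψ J' := by
  simp [mem_gluedAlg]

lemma gluedAlg_le_iff {J₁ J₂ : Ideal C} : gluedAlg Ψ J₁ ≤ gluedAlg Ψ J₂ ↔ J₁ ≤ J₂ := by
  constructor
  · intro h d hd
    have : ((d, 0) : C × C) ∈ gluedAlg Ψ J₁ := by simpa [mem_gluedAlg] using hd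
    simpa [mem_gluedAlg] using h this
  · intro h z hz
    exact h hz

lemma gluedAlg_injective : Function.Injective (gluedAlg (k := k) Ψ) := by
  intro J₁ J₂ h
  exact le_antisymm ((gluedAlg_le_iff Ψ).1 h.le) ((gluedAlg_le_iff Ψ).1 h.ge)

/-- **every subalgebra containing the two graphs is a glueing.** -/
theorem exists_ideal_eq_gluedAlg (R : Subalgebra k (C × C))
    (h1 : ∀ a, (a, Ψ a) ∈ R) (h2 : ∀ b, (Ψ b, b) ∈ R) :
    ∃ J' : Ideal C, fixIdeal Ψ ≤ J' ∧ R = gluedAlg Ψ J' := by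
  have hJ0 : ∀ j ∈ fixIdeal Ψ, ((j, 0) : C × C) ∈ R := by
    intro j hj
    refine Submodule.span_induction ?_ ?_ ?_ ?_ hj
    · rintro _ ⟨a, rfl⟩
      have := R.sub_mem (h1 a) (h2 (Ψ a))
      simpa using this
    · exact R.zero_mem
    · intro x y _ _ hx hy
      have := R.add_mem hx hy
      simpa using this
    · intro c x _ hx
      have := R.mul_mem (h1 c) hx
      simpa using this
  let J' : Ideal C :=
    { carrier := {d | ∃ z ∈ R, z.1 - Ψ z.2 = d}
      add_mem' := by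
        rintro _ _ ⟨z, hz, rfl⟩ ⟨z', hz', rfl⟩
        refine ⟨z + z', R.add_mem hz hz', ?_⟩
        simp only [Prod.fst_add, Prod.snd_add, map_add]
        ring
      zero_mem' := ⟨0, R.zero_mem, by simp⟩
      smul_mem' := by
        rintro c _ ⟨z, hz, rfl⟩
        have hj : ((-(c - Ψ (Ψ c)) * Ψ z.2, 0) : C × C) ∈ R :=
          hJ0 _ ((fixIdeal Ψ).mul_mem_right _ ((fixIdeal Ψ).neg_mem (sub_mem_fixIdeal Ψ c)))
        refine ⟨(c, Ψ c) * z + (-(c - Ψ (Ψ c)) * Ψ z.2, 0), R.add_mem (R.mul_mem (h1 c) hz) hj, ?_⟩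
        simp only [Prod.fst_add, Prod.snd_add, Prod.fst_mul, Prod.snd_mul, add_zero, map_mul,
          smul_eq_mul]
        ring }
  have hmem : ∀ d, d ∈ J' ↔ ∃ z ∈ R, z.1 - Ψ z.2 = d := fun d => Iff.rfl
  refine ⟨J', ?_, ?_⟩
  · intro j hj
    exact (hmem j).2 ⟨(j, 0), hJ0 j hj, by simp⟩
  · apply le_antisymm
    · intro z hz
      exact (hmem _).2 ⟨z, hz, rfl⟩
    · intro z hz
      obtain ⟨z', hz', hzz'⟩ := (hmem _).1 hz
      have h3 : z = z' + (Ψ (z.2 - z'.2), z.2 - z'.2) := by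
        ext
        · simp only [Prod.fst_add, map_sub]
          linear_combination -hzz'
        · simp
      rw [h3]
      exact R.add_mem hz' (h2 _)

/-- the subalgebra generated by the two graphs is the glueing along `fixIdeal Ψ`. -/
theorem adjoin_eq_gluedAlg :
    Algebra.adjoin k ((Set.range fun a : C => ((a, Ψ a) : C × C)) ∪
      Set.range fun b : C => ((Ψ b, b) : C × C)) = gluedAlg Ψ (fixIdeal Ψ) := by
  set S : Set (C × C) := (Set.range fun a : C => ((a, Ψ a) : C × C)) ∪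
      Set.range fun b : C => ((Ψ b, b) : C × C) with hS
  have hle : Algebra.adjoin k S ≤ gluedAlg Ψ (fixIdeal Ψ) := by
    refine Algebra.adjoin_le ?_
    rintro _ (⟨a, rfl⟩ | ⟨b, rfl⟩)
    · exact left_mem_gluedAlg Ψ _ le_rfl a
    · exact right_mem_gluedAlg Ψ _ b
  obtain ⟨J', hJ', hR⟩ := exists_ideal_eq_gluedAlg Ψ (Algebra.adjoin k S)
    (fun a => Algebra.subset_adjoin (Or.inl ⟨a, rfl⟩))
    (fun b => Algebra.subset_adjoin (Or.inr ⟨b, rfl⟩))
  rw [hR] at hle ⊢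
  have := (gluedAlg_le_iff Ψ).1 hle
  rw [le_antisymm this hJ']

/-- the `k`-linear map `(g, h) ↦ g - Ψ h mod J'`. -/
noncomputable def diffMap (J' : Ideal C) : (C × C) →ₗ[k] (C ⧸ J') :=
  (Ideal.Quotient.mkₐ k J').toLinearMap ∘ₗ
    (LinearMap.fst k C C - Ψ.toLinearMap ∘ₗ LinearMap.snd k C C)

@[simp] lemma diffMap_apply (J' : Ideal C) (z : C × C) :
    diffMap Ψ J' z = Ideal.Quotient.mk J' (z.1 - Ψ z.2) := rfl

lemma diffMap_surjective (J' : Ideal C) : Function.Surjective (diffMap Ψ J') := by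
  intro y
  obtain ⟨c, rfl⟩ := Ideal.Quotient.mk_surjective y
  exact ⟨(c, 0), by simp⟩

lemma ker_diffMap (J' : Ideal C) :
    LinearMap.ker (diffMap Ψ J') = Subalgebra.toSubmodule (gluedAlg Ψ J') := by
  ext z
  rw [LinearMap.mem_ker, diffMap_apply, Ideal.Quotient.eq_zero_iff_mem]
  rfl

/-- `(C × C) / gluedAlg Ψ J' ≃ C / J'` (so `δ = dim_k C / J'`). -/
noncomputable def quotientGluedAlgEquiv (J' : Ideal C) :
    ((C × C) ⧸ Subalgebra.toSubmodule (gluedAlg Ψ J')) ≃ₗ[k] (C ⧸ J') :=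
  (Submodule.quotEquivOfEq _ _ (ker_diffMap Ψ J').symm).trans
    ((diffMap Ψ J').quotKerEquivOfSurjective (diffMap_surjective Ψ J'))


/-! ### Dedekind part -/

section Dedekind

variable [IsDedekindDomain C]

/-- an ideal of a Dedekind domain lying in no square of a maximal ideal is radical. -/
lemma isRadical_of_forall_not_le_sq {J : Ideal C} (hJ : J ≠ ⊥)
    (h : ∀ P : Ideal C, P.IsMaximal → ¬ J ≤ P ^ 2) : J.IsRadical := by
  rw [Ideal.isRadical_iff_pow_one_lt 2 one_lt_two]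
  intro x hx
  set I : Ideal C := J ⊔ Ideal.span {x} with hI
  have hJI : J ≤ I := le_sup_left
  have hI2 : I ^ 2 ≤ J := by
    rw [hI, sq, Ideal.sup_mul, Ideal.mul_sup, Ideal.mul_sup]
    refine sup_le (sup_le Ideal.mul_le_left Ideal.mul_le_left) (sup_le Ideal.mul_le_right ?_)
    rw [Ideal.span_singleton_mul_span_singleton, Ideal.span_singleton_le_iff_mem, ← sq]
    exact hx
  obtain ⟨K, hK⟩ := Ideal.dvd_iff_le.2 hJI
  have hI0 : I ≠ ⊥ := fun h0 => hJ (le_bot_iff.1 (h0 ▸ hJI))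
  have hKI : K ∣ I := by
    have : I * K ∣ I * I := by
      rw [← hK, ← sq]
      exact Ideal.dvd_iff_le.2 hI2
    exact (mul_dvd_mul_iff_left hI0).1 this
  obtain ⟨L, hL⟩ := hKI
  by_cases hKtop : K = ⊤
  · have : J = I := by rw [hK, hKtop, Ideal.mul_top]
    rw [this]
    exact Ideal.mem_sup_right (Ideal.mem_span_singleton_self x)
  · obtain ⟨P, hP, hKP⟩ := Ideal.exists_le_maximal K hKtop
    exfalso
    apply h P hP
    rw [hK, hL, sq]
    calc K * L * K = (K * K) * L := by ring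
      _ ≤ K * K := Ideal.mul_le_left
      _ ≤ P * P := Ideal.mul_mono hKP hKP

variable {q : ℕ}

/-- `fixIdeal Ψ` lies in no square of a maximal ideal when `Ψ (C) ⊆ C ^ q`, `q ≥ 2`. -/
lemma fixIdeal_not_le_sq (hC : ¬ IsField C) (hq : 2 ≤ q) (hΨ : ∀ a, ∃ b, Ψ a = b ^ q)
    (P : Ideal C) (hP : P.IsMaximal) : ¬ fixIdeal Ψ ≤ P ^ 2 := by
  intro hle
  have := hP.isPrime
  have hP0 : P ≠ ⊥ := Ring.ne_bot_of_isMaximal_of_not_isField hP hC
  have hlt : P ^ 2 < P := by
    have := Ideal.pow_succ_lt_pow hP0 1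
    simpa using this
  obtain ⟨a, haP, haP2⟩ := SetLike.exists_of_lt hlt
  have h1 : a - Ψ (Ψ a) ∈ P ^ 2 := hle (sub_mem_fixIdeal Ψ a)
  obtain ⟨b, hb⟩ := hΨ (Ψ a)
  have h2 : Ψ (Ψ a) ∈ P := by
    have := P.sub_mem haP (Ideal.pow_le_self two_ne_zero h1)
    simpa using this
  have hbP : b ∈ P := by
    rw [hb] at h2
    exact hP.isPrime.mem_of_pow_mem q h2
  have h3 : Ψ (Ψ a) ∈ P ^ 2 := by
    rw [hb]
    exact Ideal.pow_le_pow_right hq (Ideal.pow_mem_pow hbP q)
  apply haP2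
  have := (P ^ 2).add_mem h1 h3
  simpa using this

theorem fixIdeal_ne_bot (hC : ¬ IsField C) (hq : 2 ≤ q) (hΨ : ∀ a, ∃ b, Ψ a = b ^ q) :
    fixIdeal Ψ ≠ ⊥ := by
  intro h0
  obtain ⟨P, hP⟩ := Ideal.exists_maximal C
  exact fixIdeal_not_le_sq Ψ hC hq hΨ P hP (h0 ▸ bot_le)

/-- every ideal containing `fixIdeal Ψ` is radical: the glueing is NODAL. -/
theorem isRadical_of_fixIdeal_le (hC : ¬ IsField C) (hq : 2 ≤ q) (hΨ : ∀ a, ∃ b, Ψ a = b ^ q)
    {J' : Ideal C} (h : fixIdeal Ψ ≤ J') : J'.IsRadical :=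
  isRadical_of_forall_not_le_sq
    (fun h0 => fixIdeal_ne_bot Ψ hC hq hΨ (le_bot_iff.1 (h0 ▸ h)))
    (fun P hP hle => fixIdeal_not_le_sq Ψ hC hq hΨ P hP (h.trans hle))

theorem fixIdeal_isRadical (hC : ¬ IsField C) (hq : 2 ≤ q) (hΨ : ∀ a, ∃ b, Ψ a = b ^ q) :
    (fixIdeal Ψ).IsRadical := isRadical_of_fixIdeal_le Ψ hC hq hΨ le_rfl

/-- the nodes of the glueing along `J'`: the maximal ideals containing `J'`. -/
def nodes (J' : Ideal C) : Set (Ideal C) := {P | P.IsMaximal ∧ J' ≤ P}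

lemma finite_nodes (hC : ¬ IsField C) {J' : Ideal C} (hJ' : J' ≠ ⊥) : (nodes J').Finite := by
  have := Ideal.finite_factors hJ'
  refine (this.image (fun v => v.asIdeal)).subset ?_
  rintro P ⟨hP, hle⟩
  exact ⟨⟨P, hP.isPrime, Ring.ne_bot_of_isMaximal_of_not_isField hP hC⟩,
    Ideal.dvd_iff_le.2 hle, rfl⟩

lemma eq_sInf_nodes {J' : Ideal C} (hJ' : J' ≠ ⊥) (hrad : J'.IsRadical) :
    J' = sInf (nodes J') := by
  conv_lhs => rw [← hrad.radical, Ideal.radical_eq_sInf]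
  congr 1
  ext P
  constructor
  · rintro ⟨hle, hP⟩
    exact ⟨hP.isMaximal (fun h0 => hJ' (le_bot_iff.1 (h0 ▸ hle))), hle⟩
  · rintro ⟨hP, hle⟩
    exact ⟨hle, hP.isPrime⟩

/-- membership in the glueing is tested at the nodes. -/
theorem mem_gluedAlg_iff_forall_nodes (hC : ¬ IsField C) (hq : 2 ≤ q)
    (hΨ : ∀ a, ∃ b, Ψ a = b ^ q) {J' : Ideal C} (h : fixIdeal Ψ ≤ J') (z : C × C) :
    z ∈ gluedAlg Ψ J' ↔ ∀ P ∈ nodes J', z.1 - Ψ z.2 ∈ P := by
  have hJ' : J' ≠ ⊥ := fun h0 => fixIdeal_ne_bot Ψ hC hq hΨ (le_bot_iff.1 (h0 ▸ h))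
  rw [mem_gluedAlg]
  conv_lhs => rw [eq_sInf_nodes hJ' (isRadical_of_fixIdeal_le Ψ hC hq hΨ h)]
  rw [Ideal.mem_sInf]


end Dedekind

/-! ### Characters of `k`-rational maximal ideals -/

section Characters

/-- `k ≃ C ⧸ P` for a `k`-rational maximal ideal. -/
noncomputable def residueEquiv (P : Ideal C) (hP : P.IsMaximal)
    (hk : Function.Surjective (algebraMap k (C ⧸ P))) : k ≃ₐ[k] (C ⧸ P) :=
  haveI := hP
  AlgEquiv.ofBijective (Algebra.ofId k (C ⧸ P)) ⟨(algebraMap k (C ⧸ P)).injective, hk⟩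

@[simp] lemma residueEquiv_apply (P : Ideal C) (hP : P.IsMaximal)
    (hk : Function.Surjective (algebraMap k (C ⧸ P))) (r : k) :
    residueEquiv P hP hk r = algebraMap k (C ⧸ P) r := rfl

/-- the character `C → k` of a `k`-rational maximal ideal (value of a function at the point). -/
noncomputable def evalAt (P : Ideal C) (hP : P.IsMaximal)
    (hk : Function.Surjective (algebraMap k (C ⧸ P))) : C →ₐ[k] k :=
  ((residueEquiv P hP hk).symm : (C ⧸ P) →ₐ[k] k).comp (Ideal.Quotient.mkₐ k P)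

lemma algebraMap_evalAt (P : Ideal C) (hP : P.IsMaximal)
    (hk : Function.Surjective (algebraMap k (C ⧸ P))) (c : C) :
    algebraMap k (C ⧸ P) (evalAt P hP hk c) = Ideal.Quotient.mk P c := by
  exact (residueEquiv P hP hk).apply_symm_apply (Ideal.Quotient.mk P c)

lemma evalAt_eq_zero_iff (P : Ideal C) (hP : P.IsMaximal)
    (hk : Function.Surjective (algebraMap k (C ⧸ P))) (c : C) :
    evalAt P hP hk c = 0 ↔ c ∈ P := by
  rw [← Ideal.Quotient.eq_zero_iff_mem, ← algebraMap_evalAt P hP hk c]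
  have := hP
  constructor
  · intro h
    rw [h, map_zero]
  · intro h
    exact (algebraMap k (C ⧸ P)).injective (by rw [h, map_zero])

lemma evalAt_eq_iff (P : Ideal C) (hP : P.IsMaximal)
    (hk : Function.Surjective (algebraMap k (C ⧸ P))) (c d : C) :
    evalAt P hP hk c = evalAt P hP hk d ↔ c - d ∈ P := by
  rw [← evalAt_eq_zero_iff P hP hk, map_sub, sub_eq_zero]

lemma sub_algebraMap_evalAt_mem (P : Ideal C) (hP : P.IsMaximal)
    (hk : Function.Surjective (algebraMap k (C ⧸ P))) (c : C) :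
    c - algebraMap k C (evalAt P hP hk c) ∈ P := by
  rw [← Ideal.Quotient.eq_zero_iff_mem, map_sub, ← algebraMap_evalAt P hP hk c, sub_eq_zero]
  rfl

end Characters

section Count

variable [IsDedekindDomain C] {q : ℕ}

/-- **membership in the glueing = equal values at the two branches of every node**
(`e₁ = evalAt P` on the first copy, `e₂ = evalAt P ∘ Ψ` on the second). -/
theorem mem_gluedAlg_iff_evalAt (hC : ¬ IsField C) (hq : 2 ≤ q)
    (hΨ : ∀ a, ∃ b, Ψ a = b ^ q) {J' : Ideal C} (h : fixIdeal Ψ ≤ J')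
    (hk : ∀ P ∈ nodes J', Function.Surjective (algebraMap k (C ⧸ P))) (z : C × C) :
    z ∈ gluedAlg Ψ J' ↔
      ∀ (P : Ideal C) (hP : P ∈ nodes J'),
        evalAt P hP.1 (hk P hP) z.1 = evalAt P hP.1 (hk P hP) (Ψ z.2) := by
  rw [mem_gluedAlg_iff_forall_nodes Ψ hC hq hΨ h]
  constructor
  · intro H P hP
    rw [evalAt_eq_iff]
    exact H P hP
  · intro H P hP
    rw [← evalAt_eq_iff P hP.1 (hk P hP)]
    exact H P hP

/-- `dim_k C ⧸ J'` is the number of nodes when they are `k`-rational. -/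
theorem finrank_quotient_eq_ncard_nodes (hC : ¬ IsField C) {J' : Ideal C} (hJ' : J' ≠ ⊥)
    (hrad : J'.IsRadical)
    (hk : ∀ P ∈ nodes J', Function.Surjective (algebraMap k (C ⧸ P))) :
    Module.finrank k (C ⧸ J') = (nodes J').ncard := by
  classical
  have hfin := finite_nodes hC hJ'
  let _ : Fintype (nodes J') := hfin.fintype
  let f : nodes J' → Ideal C := fun i => i.1
  have hf : Pairwise (Function.onFun IsCoprime f) := by
    intro i j hij
    exact Ideal.isCoprime_iff_sup_eq.2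
      (Ideal.IsMaximal.coprime_of_ne i.2.1 j.2.1 (fun h => hij (Subtype.ext h)))
  -- the evaluation map
  let E : C →ₗ[k] (nodes J' → k) :=
    LinearMap.pi fun i => (evalAt i.1 i.2.1 (hk i.1 i.2)).toLinearMap
  have hE : ∀ c i, E c i = evalAt i.1 i.2.1 (hk i.1 i.2) c := fun c i => rfl
  have hker : LinearMap.ker E = J'.restrictScalars k := by
    ext c
    rw [LinearMap.mem_ker, Submodule.restrictScalars_mem]
    conv_rhs => rw [eq_sInf_nodes hJ' hrad, Ideal.mem_sInf]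
    constructor
    · intro h P hP
      have := congrFun h ⟨P, hP⟩
      rw [hE] at this
      exact (evalAt_eq_zero_iff _ _ _ _).1 this
    · intro h
      funext i
      rw [hE]
      exact (evalAt_eq_zero_iff _ _ _ _).2 (h i.2)
  have hsurj : Function.Surjective E := by
    intro y
    obtain ⟨c, hc⟩ := Ideal.pi_quotient_surjective hf
      (fun i => algebraMap k (C ⧸ f i) (y i))
    refine ⟨c, funext fun i => ?_⟩
    rw [hE]
    have := i.2.1
    apply (algebraMap k (C ⧸ i.1)).injective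
    rw [algebraMap_evalAt]
    exact hc i
  have e1 : (C ⧸ J'.restrictScalars k) ≃ₗ[k] (nodes J' → k) :=
    (Submodule.quotEquivOfEq _ _ hker.symm).trans (E.quotKerEquivOfSurjective hsurj)
  have e2 : (C ⧸ J') ≃ₗ[k] (C ⧸ J'.restrictScalars k) := LinearEquiv.refl k _
  rw [(e2.trans e1).finrank_eq, Module.finrank_fintype_fun_eq_card, Set.ncard_eq_toFinset_card',
    Set.toFinset_card]

/-- **the codimension of the glueing is the number of nodes.** -/
theorem finrank_quotient_gluedAlg (hC : ¬ IsField C) (hq : 2 ≤ q)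
    (hΨ : ∀ a, ∃ b, Ψ a = b ^ q) {J' : Ideal C} (h : fixIdeal Ψ ≤ J')
    (hk : ∀ P ∈ nodes J', Function.Surjective (algebraMap k (C ⧸ P))) :
    Module.finrank k ((C × C) ⧸ Subalgebra.toSubmodule (gluedAlg Ψ J')) = (nodes J').ncard := by
  have hJ' : J' ≠ ⊥ := fun h0 => fixIdeal_ne_bot Ψ hC hq hΨ (le_bot_iff.1 (h0 ▸ h))
  rw [(quotientGluedAlgEquiv Ψ J').finrank_eq]
  exact finrank_quotient_eq_ncard_nodes hC hJ' (isRadical_of_fixIdeal_le Ψ hC hq hΨ h) hk

end Count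

end Fermat.Agent.GK.FrobGlue
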