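import Fermat.Agent.GK.Nodal.FrobGlue

/-!
# GATE-K / FrobGlue for the chart at infinity: saturation and the overlap (helper29)

Pure algebra on top of `FrobGlue` (Mathlib only otherwise).

The pencil count (board 2196 (ii), step (3)) needs: for `z` in the reduction `B~` of the finite
chart, `z / s₁ ^ n` lies in the reduction `B_∞~` of the chart at infinity as soon as both of its
components are regular on that chart (`s₁ = (j~, j~ ^ q) = (j~, Ψ j~)`).  "The nodes of the two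
charts agree on the overlap" is replaced by a statement WITHOUT nodes, primes or Dedekind
hypotheses:

* `mem_gluedAlg_of_pow_mul_mem` (typed form): if `J' ⊔ (t) = ⊤` (no cusp is a node: helper16's
  `Cusp.sup_span_eq_top_of_mem`) and `(t, Ψ t) ^ m * z ∈ gluedAlg Ψ J'` then `z ∈ gluedAlg Ψ J'`.
* `mem_of_pow_mul_mem` (untyped form, everything inside one ambient ring `F`, no `gluedAlg`):
  `R₁ ≤ C₁ × C₁` a subalgebra of `F × F` containing the two graphs over `C₁` and ONE element `e`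
  with `e.1 - Ψ e.2 = 1 + c * t`; then `z ∈ C₁ × C₁` and `(t, Ψ t) ^ m * z ∈ R₁` give `z ∈ R₁`.
* `transfer` : the overlap statement in the form consumed by the pencil count: if every element of
  `R₀` (finite chart) is moved into `R₁` by some power of `σ = (t, Ψ t)` (`B[1/j] = B_∞[j]`), then
  for `z ∈ R₀` and ANY `n` with `σ ^ n * z ∈ C₁ × C₁` one has `σ ^ n * z ∈ R₁`.
-/

set_option autoImplicit false

namespace Fermat.Agent.GK.FrobGlue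

section Typed

variable {k C : Type*} [Field k] [CommRing C] [Algebra k C] (Ψ : C →ₐ[k] C)

/-- comaximality with `t` passes to powers of `t`. -/
lemma sup_span_pow_eq_top {J' : Ideal C} {t : C} (ht : J' ⊔ Ideal.span {t} = ⊤) (m : ℕ) :
    J' ⊔ Ideal.span {t ^ m} = ⊤ := by
  induction m with
  | zero => simp
  | succ m ih =>
    rw [Ideal.eq_top_iff_one] at ht ih ⊢
    obtain ⟨a, ha, b, hb, hab⟩ := Submodule.mem_sup.1 ht
    obtain ⟨a', ha', b', hb', hab'⟩ := Submodule.mem_sup.1 ih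
    obtain ⟨c, rfl⟩ := Ideal.mem_span_singleton'.1 hb
    obtain ⟨c', rfl⟩ := Ideal.mem_span_singleton'.1 hb'
    have h1 : (1 : C) = (a * a' + a * (c' * t ^ m) + c * t * a') + c * c' * t ^ (m + 1) := by
      have : (1 : C) = (a + c * t) * (a' + c' * t ^ m) := by rw [hab, hab', one_mul]
      rw [this]
      ring
    rw [h1]
    refine Submodule.add_mem_sup ?_ (Ideal.mem_span_singleton'.2 ⟨c * c', rfl⟩)
    exact J'.add_mem (J'.add_mem (J'.mul_mem_left _ ha') (J'.mul_mem_right _ ha))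
      (J'.mul_mem_left _ ha')

/-- if `J'` is comaximal with `t` and `t ^ m * d ∈ J'` then `d ∈ J'`. -/
lemma mem_of_pow_mul_mem_of_sup_eq_top {J' : Ideal C} {t : C} (ht : J' ⊔ Ideal.span {t} = ⊤)
    {m : ℕ} {d : C} (hd : t ^ m * d ∈ J') : d ∈ J' := by
  have h := sup_span_pow_eq_top ht m
  rw [Ideal.eq_top_iff_one] at h
  obtain ⟨a, ha, b, hb, hab⟩ := Submodule.mem_sup.1 h
  obtain ⟨c, rfl⟩ := Ideal.mem_span_singleton'.1 hb
  have : d = a * d + c * (t ^ m * d) := by linear_combination (-d) * hab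
  rw [this]
  exact J'.add_mem (J'.mul_mem_right _ ha) (J'.mul_mem_left _ hd)

/-- the glueing defect of `(t, Ψ t) ^ m * z` is `t ^ m` times that of `z`, modulo `fixIdeal Ψ`. -/
lemma pow_mul_defect_sub_mem (t : C) (m : ℕ) (z : C × C) :
    (((t, Ψ t) : C × C) ^ m * z).1 - Ψ (((t, Ψ t) : C × C) ^ m * z).2
      - t ^ m * (z.1 - Ψ z.2) ∈ fixIdeal Ψ := by
  have hfix : t ^ m - Ψ (Ψ (t ^ m)) ∈ fixIdeal Ψ := sub_mem_fixIdeal Ψ (t ^ m)
  have key : (((t, Ψ t) : C × C) ^ m * z).1 - Ψ (((t, Ψ t) : C × C) ^ m * z).2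
      - t ^ m * (z.1 - Ψ z.2) = Ψ z.2 * (t ^ m - Ψ (Ψ (t ^ m))) := by
    simp only [Prod.fst_mul, Prod.snd_mul, Prod.pow_fst, Prod.pow_snd, map_mul, map_pow]
    ring
  rw [key]
  exact (fixIdeal Ψ).mul_mem_left _ hfix

/-- **saturation at the cusps (typed form).**  If no cusp is a node (`J' ⊔ (t) = ⊤`) then
`gluedAlg Ψ J'` is saturated in `C × C` with respect to `σ = (t, Ψ t)`. -/
theorem mem_gluedAlg_of_pow_mul_mem {J' : Ideal C} (hJ : fixIdeal Ψ ≤ J') {t : C}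
    (ht : J' ⊔ Ideal.span {t} = ⊤) {m : ℕ} {z : C × C}
    (h : ((t, Ψ t) : C × C) ^ m * z ∈ gluedAlg Ψ J') : z ∈ gluedAlg Ψ J' := by
  rw [mem_gluedAlg] at h ⊢
  have h2 := hJ (pow_mul_defect_sub_mem Ψ t m z)
  have h3 : t ^ m * (z.1 - Ψ z.2) ∈ J' := by
    have := J'.sub_mem h h2
    simpa using this
  exact mem_of_pow_mul_mem_of_sup_eq_top ht h3

/-- the converse direction is free: `σ = (t, Ψ t)` lies in every glueing along `J' ≥ fixIdeal`. -/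
lemma pow_mul_mem_gluedAlg {J' : Ideal C} (hJ : fixIdeal Ψ ≤ J') (t : C) (m : ℕ) {z : C × C}
    (h : z ∈ gluedAlg Ψ J') : ((t, Ψ t) : C × C) ^ m * z ∈ gluedAlg Ψ J' :=
  (gluedAlg Ψ J').mul_mem ((gluedAlg Ψ J').pow_mem (left_mem_gluedAlg Ψ J' hJ t) m) h

end Typed

section Untyped

variable {k F : Type*} [Field k] [CommRing F] [Algebra k F] (Ψ : F →ₐ[k] F)

/-- **saturation at the cusps (untyped form).**  Everything lives in one ambient ring `F`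
(the residue function field): `C₁` the chart at infinity, `R₁ ≤ C₁ × C₁` the reduction of the
order `B_∞`, containing the two graphs over `C₁` and one element `e` with
`e.1 - Ψ e.2 = 1 + c * t` (K-CUSP; e.g. `e = red (j_q / j ^ q) = (1, t ^ (q² - 1))`, or a
separator `(1 - t ^ m, 0)`).  Then `R₁` is saturated in `C₁ × C₁` with respect to
`σ = (t, Ψ t)`. -/
theorem mem_of_pow_mul_mem (C₁ : Subalgebra k F) (hΨ : ∀ a ∈ C₁, Ψ a ∈ C₁)
    (R₁ : Subalgebra k (F × F))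
    (h1 : ∀ a ∈ C₁, (a, Ψ a) ∈ R₁) (h2 : ∀ b ∈ C₁, (Ψ b, b) ∈ R₁)
    {t : F} (ht : t ∈ C₁) {e : F × F} (he : e ∈ R₁) (he2 : e.2 ∈ C₁) {c : F} (hc : c ∈ C₁)
    (hec : e.1 - Ψ e.2 = 1 + c * t)
    {z : F × F} (hz1 : z.1 ∈ C₁) (hz2 : z.2 ∈ C₁) {m : ℕ}
    (h : ((t, Ψ t) : F × F) ^ m * z ∈ R₁) : z ∈ R₁ := by
  -- the "ideal" of `R₁`
  have hI_mul : ∀ a ∈ C₁, ∀ d : F, ((d, 0) : F × F) ∈ R₁ → ((a * d, 0) : F × F) ∈ R₁ := by
    intro a ha d hd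
    have := R₁.mul_mem (h1 a ha) hd
    simpa using this
  -- `e₀ = 1 + c t` lies in it
  have he0 : ((1 + c * t, 0) : F × F) ∈ R₁ := by
    have := R₁.sub_mem he (h2 e.2 he2)
    rw [← hec]
    have e0 : ((e.1 - Ψ e.2, 0) : F × F) = e - (Ψ e.2, e.2) := by ext <;> simp
    rw [e0]
    exact this
  -- the defect of `z`
  set d : F := z.1 - Ψ z.2 with hd
  have hdC : d ∈ C₁ := C₁.sub_mem hz1 (hΨ _ hz2)
  -- `t ^ m * d` lies in the ideal
  have htm : t ^ m ∈ C₁ := C₁.pow_mem ht m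
  have hfix : ((t ^ m - Ψ (Ψ (t ^ m)), 0) : F × F) ∈ R₁ := by
    have := R₁.sub_mem (h1 _ htm) (h2 _ (hΨ _ htm))
    simpa using this
  have hσz : ((t ^ m * z.1 - Ψ ((Ψ t) ^ m * z.2), 0) : F × F) ∈ R₁ := by
    have hb : (Ψ t) ^ m * z.2 ∈ C₁ := C₁.mul_mem (C₁.pow_mem (hΨ _ ht) m) hz2
    have := R₁.sub_mem h (h2 _ hb)
    have e0 : ((t ^ m * z.1 - Ψ ((Ψ t) ^ m * z.2), 0) : F × F)
        = ((t, Ψ t) : F × F) ^ m * z - (Ψ ((Ψ t) ^ m * z.2), (Ψ t) ^ m * z.2) := by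
      ext <;> simp
    rw [e0]
    exact this
  have htd : ((t ^ m * d, 0) : F × F) ∈ R₁ := by
    have h4 := hI_mul (Ψ z.2) (hΨ _ hz2) _ hfix
    have h5 := R₁.sub_mem hσz h4
    have : t ^ m * d = t ^ m * z.1 - Ψ ((Ψ t) ^ m * z.2) - Ψ z.2 * (t ^ m - Ψ (Ψ (t ^ m))) := by
      simp only [hd, map_mul, map_pow]
      ring
    rw [this]
    simpa using h5
  -- descend the exponent
  have hdesc : ∀ n : ℕ, ((t ^ n * d, 0) : F × F) ∈ R₁ → ((d, 0) : F × F) ∈ R₁ := by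
    intro n
    induction n with
    | zero => intro h0; simpa using h0
    | succ n ih =>
      intro hn
      apply ih
      have hn' : t ^ n * d ∈ C₁ := C₁.mul_mem (C₁.pow_mem ht n) hdC
      have e1 : (((1 + c * t) * (t ^ n * d), 0) : F × F) ∈ R₁ := by
        have := R₁.mul_mem he0 (h1 _ hn')
        simpa using this
      have e2 := hI_mul c hc _ hn
      have := R₁.sub_mem e1 e2
      have e3 : (1 + c * t) * (t ^ n * d) - c * (t ^ (n + 1) * d) = t ^ n * d := by ring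
      simpa [e3] using this
  have hd0 := hdesc m htd
  have : z = (d, 0) + (Ψ z.2, z.2) := by
    ext
    · simp [hd]
    · simp
  rw [this]
  exact R₁.add_mem hd0 (h2 _ hz2)

/-- **the overlap of the two charts**, in the form consumed by the pencil count.  `R₀` is the
reduction of the finite chart, `R₁` that of the chart at infinity, `σ = (t, Ψ t)` with
`t = 1 / j~`; `hloc` is `B[1/j] ⊆ ⋃ j ^ m B_∞` after reduction.  For `z ∈ R₀` and ANY `n` such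
that `σ ^ n * z` has both components in `C₁`, `σ ^ n * z ∈ R₁`. -/
theorem transfer (C₁ : Subalgebra k F) (hΨ : ∀ a ∈ C₁, Ψ a ∈ C₁)
    (R₀ R₁ : Subalgebra k (F × F))
    (h1 : ∀ a ∈ C₁, (a, Ψ a) ∈ R₁) (h2 : ∀ b ∈ C₁, (Ψ b, b) ∈ R₁)
    {t : F} (ht : t ∈ C₁) {e : F × F} (he : e ∈ R₁) (he2 : e.2 ∈ C₁) {c : F} (hc : c ∈ C₁)
    (hec : e.1 - Ψ e.2 = 1 + c * t)
    (hloc : ∀ z ∈ R₀, ∃ m : ℕ, ((t, Ψ t) : F × F) ^ m * z ∈ R₁)
    {z : F × F} (hz : z ∈ R₀) (n : ℕ)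
    (hz1 : (((t, Ψ t) : F × F) ^ n * z).1 ∈ C₁) (hz2 : (((t, Ψ t) : F × F) ^ n * z).2 ∈ C₁) :
    ((t, Ψ t) : F × F) ^ n * z ∈ R₁ := by
  obtain ⟨m, hm⟩ := hloc z hz
  have hσ : ((t, Ψ t) : F × F) ∈ R₁ := h1 t ht
  rcases le_total m n with hmn | hnm
  · obtain ⟨r, rfl⟩ := Nat.exists_eq_add_of_le hmn
    rw [pow_add, mul_comm (((t, Ψ t) : F × F) ^ m), mul_assoc]
    exact R₁.mul_mem (R₁.pow_mem hσ r) hm
  · obtain ⟨r, rfl⟩ := Nat.exists_eq_add_of_le hnm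
    rw [pow_add, mul_comm (((t, Ψ t) : F × F) ^ n), mul_assoc] at hm
    exact mem_of_pow_mul_mem Ψ C₁ hΨ R₁ h1 h2 ht he he2 hc hec hz1 hz2 hm

/-! ### general `σ` (symmetric chart `t = j * j_q`, `σ = red t⁻¹` NOT of the form `(u, Ψ u)`) -/

/-- **saturation at the cusps, general `σ`.**  As `mem_of_pow_mul_mem`, for an arbitrary element
`σ ∈ R₁` with both components in `C₁` (e.g. `σ = red (j * j_q)⁻¹ = (s ^ (1 + q), s ^ (1 + q))`,
`s = 1 / j~`), and a K-CUSP element `e` with `e.1 - Ψ e.2 = 1 + c * σ.1`. -/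
theorem mem_of_sigma_pow_mul_mem (C₁ : Subalgebra k F) (hΨ : ∀ a ∈ C₁, Ψ a ∈ C₁)
    (R₁ : Subalgebra k (F × F))
    (h1 : ∀ a ∈ C₁, (a, Ψ a) ∈ R₁) (h2 : ∀ b ∈ C₁, (Ψ b, b) ∈ R₁)
    {σ : F × F} (hσ : σ ∈ R₁) (hσ1 : σ.1 ∈ C₁) (hσ2 : σ.2 ∈ C₁)
    {e : F × F} (he : e ∈ R₁) (he2 : e.2 ∈ C₁) {c : F} (hc : c ∈ C₁)
    (hec : e.1 - Ψ e.2 = 1 + c * σ.1)
    {z : F × F} (hz1 : z.1 ∈ C₁) (hz2 : z.2 ∈ C₁) {m : ℕ}
    (h : σ ^ m * z ∈ R₁) : z ∈ R₁ := by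
  have hI_mul : ∀ a ∈ C₁, ∀ d : F, ((d, 0) : F × F) ∈ R₁ → ((a * d, 0) : F × F) ∈ R₁ := by
    intro a ha d hd
    have := R₁.mul_mem (h1 a ha) hd
    simpa using this
  have he0 : ((1 + c * σ.1, 0) : F × F) ∈ R₁ := by
    have := R₁.sub_mem he (h2 e.2 he2)
    rw [← hec]
    have e0 : ((e.1 - Ψ e.2, 0) : F × F) = e - (Ψ e.2, e.2) := by ext <;> simp
    rw [e0]
    exact this
  set d : F := z.1 - Ψ z.2 with hd
  have hdC : d ∈ C₁ := C₁.sub_mem hz1 (hΨ _ hz2)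
  have hvm : σ.2 ^ m ∈ C₁ := C₁.pow_mem hσ2 m
  -- `(σ.1 ^ m - Ψ (σ.2 ^ m), 0) ∈ R₁`
  have hfix : ((σ.1 ^ m - Ψ (σ.2 ^ m), 0) : F × F) ∈ R₁ := by
    have := R₁.sub_mem (R₁.pow_mem hσ m) (h2 _ hvm)
    have e0 : ((σ.1 ^ m - Ψ (σ.2 ^ m), 0) : F × F) = σ ^ m - (Ψ (σ.2 ^ m), σ.2 ^ m) := by
      ext <;> simp
    rw [e0]
    exact this
  have hσz : ((σ.1 ^ m * z.1 - Ψ (σ.2 ^ m * z.2), 0) : F × F) ∈ R₁ := by
    have hb : σ.2 ^ m * z.2 ∈ C₁ := C₁.mul_mem hvm hz2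
    have := R₁.sub_mem h (h2 _ hb)
    have e0 : ((σ.1 ^ m * z.1 - Ψ (σ.2 ^ m * z.2), 0) : F × F)
        = σ ^ m * z - (Ψ (σ.2 ^ m * z.2), σ.2 ^ m * z.2) := by
      ext <;> simp
    rw [e0]
    exact this
  have htd : ((σ.1 ^ m * d, 0) : F × F) ∈ R₁ := by
    have h4 := hI_mul (Ψ z.2) (hΨ _ hz2) _ hfix
    have h5 := R₁.sub_mem hσz h4
    have : σ.1 ^ m * d
        = σ.1 ^ m * z.1 - Ψ (σ.2 ^ m * z.2) - Ψ z.2 * (σ.1 ^ m - Ψ (σ.2 ^ m)) := by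
      simp only [hd, map_mul, map_pow]
      ring
    rw [this]
    simpa using h5
  have hdesc : ∀ n : ℕ, ((σ.1 ^ n * d, 0) : F × F) ∈ R₁ → ((d, 0) : F × F) ∈ R₁ := by
    intro n
    induction n with
    | zero => intro h0; simpa using h0
    | succ n ih =>
      intro hn
      apply ih
      have hn' : σ.1 ^ n * d ∈ C₁ := C₁.mul_mem (C₁.pow_mem hσ1 n) hdC
      have e1 : (((1 + c * σ.1) * (σ.1 ^ n * d), 0) : F × F) ∈ R₁ := by
        have := R₁.mul_mem he0 (h1 _ hn')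
        simpa using this
      have e2 := hI_mul c hc _ hn
      have := R₁.sub_mem e1 e2
      have e3 : (1 + c * σ.1) * (σ.1 ^ n * d) - c * (σ.1 ^ (n + 1) * d) = σ.1 ^ n * d := by ring
      simpa [e3] using this
  have hd0 := hdesc m htd
  have : z = (d, 0) + (Ψ z.2, z.2) := by
    ext
    · simp [hd]
    · simp
  rw [this]
  exact R₁.add_mem hd0 (h2 _ hz2)

/-- **the overlap of the two charts, general `σ`.** -/
theorem transfer_sigma (C₁ : Subalgebra k F) (hΨ : ∀ a ∈ C₁, Ψ a ∈ C₁)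
    (R₀ R₁ : Subalgebra k (F × F))
    (h1 : ∀ a ∈ C₁, (a, Ψ a) ∈ R₁) (h2 : ∀ b ∈ C₁, (Ψ b, b) ∈ R₁)
    {σ : F × F} (hσ : σ ∈ R₁) (hσ1 : σ.1 ∈ C₁) (hσ2 : σ.2 ∈ C₁)
    {e : F × F} (he : e ∈ R₁) (he2 : e.2 ∈ C₁) {c : F} (hc : c ∈ C₁)
    (hec : e.1 - Ψ e.2 = 1 + c * σ.1)
    (hloc : ∀ z ∈ R₀, ∃ m : ℕ, σ ^ m * z ∈ R₁)
    {z : F × F} (hz : z ∈ R₀) (n : ℕ)
    (hz1 : (σ ^ n * z).1 ∈ C₁) (hz2 : (σ ^ n * z).2 ∈ C₁) :
    σ ^ n * z ∈ R₁ := by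
  obtain ⟨m, hm⟩ := hloc z hz
  rcases le_total m n with hmn | hnm
  · obtain ⟨r, rfl⟩ := Nat.exists_eq_add_of_le hmn
    rw [pow_add, mul_comm (σ ^ m), mul_assoc]
    exact R₁.mul_mem (R₁.pow_mem hσ r) hm
  · obtain ⟨r, rfl⟩ := Nat.exists_eq_add_of_le hnm
    rw [pow_add, mul_comm (σ ^ n), mul_assoc] at hm
    exact mem_of_sigma_pow_mul_mem Ψ C₁ hΨ R₁ h1 h2 hσ hσ1 hσ2 he he2 hc hec hz1 hz2 hm

end Untyped

end Fermat.Agent.GK.FrobGlue
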